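import Fermat.Agent.S18.H438.Front.Regular
import Fermat.Agent.S18.H394.KummerRegular
import Fermat.Agent.S18.H425.GoodModelInv

/-!
# S18, node_alg (helper138, ALG-ASM): `Alg.AlgMainStatement` for arbitrary arguments

`algMain : Alg.AlgMainStatement Lc x S 𝓕` for every field `Ω`, `Lc`, `x`, `S`, `𝓕`
(frozen interface `S18/Alg/Spec.lean` v4, prime `m`).

Wiring only:
* typed core `H394.kummer_charts_of_regular` (both charts of the `x`-line model),
* front-end `H438.GoodModelFront` (helper438): `R` is a DVR, `Fc` finite over `R(x)`, `R` integrally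
  closed in `Fc`, `w` prime in the chart, `OneModPi`, `DivisibleDivisor`, `RegularAlong` (b2),
* the chart at infinity is the chart of `H425.goodModel_inv G`.
-/

set_option autoImplicit false
set_option linter.style.haveILetI false
set_option linter.unusedVariables false

namespace Fermat.Agent.S18.H138

open Fermat.Agent.S18.Alg Fermat.Agent.S18.H438 Fermat.Agent.S18.H438.GoodModelFront

variable {Ω : Type*} [Field Ω] {Lc Ec Fc : Subfield Ω} {R V : Subring Ω} {w x : Ω}
  {S : Finset Ω}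

/-- The ALG main statement for one good model. -/
theorem algMain_of_goodModel (G : GoodModel Lc Ec Fc R V w x S)
    (m : ℕ) (hm : m.Prime) (hmR : ((m : Ω))⁻¹ ∈ R)
    (u : Ω) (huF : u ∈ Fc) (hu0 : u ≠ 0) (hu1 : (u - 1) * w⁻¹ ∈ V)
    (hdiv : ∀ O : ValuationSubring Ω, (∀ a ∈ Lc, a ∈ O) →
      ∃ t : Ω, t ≠ 0 ∧ u * t ^ m ∈ O ∧ (u * t ^ m)⁻¹ ∈ O) :
    ∃ y : Ω, ∃ c ∈ Lc, c ≠ 0 ∧ u = c * y ^ m := by
  classical
  have G' := H425.goodModel_inv G
  haveI := isDiscreteValuationRing_Rf G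
  haveI := charZero_Fc G
  haveI := finiteDimensional_baseField G
  haveI : CharZero Ω := G.charZero
  have hmΩ : (m : Ω) ≠ 0 := Nat.cast_ne_zero.2 hm.ne_zero
  set uf : Fc := ⟨u, huF⟩ with huf
  have huf0 : uf ≠ 0 := fun h => hu0 (congrArg Subtype.val h)
  let ν : Rf Fc R := ⟨⟨(m : Ω)⁻¹, R_le_Fc G hmR⟩, hmR⟩
  have hν : ν * (m : Rf Fc R) = 1 := by
    apply Subtype.ext
    apply Subtype.ext
    push_cast
    exact inv_mul_cancel₀ hmΩ
  have hxinv : xf G' = (xf G)⁻¹ := Subtype.ext rfl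
  have hw₁ : Prime (algebraMap (Rf Fc R)
      (H138.chart (Rf Fc R) ({(xf G)⁻¹} : Set Fc)) (wR G)) := by
    have := prime_chart G'
    rwa [hxinv] at this
  have hreg₁ : H754.RegularAlong (algebraMap (Rf Fc R)
      (H138.chart (Rf Fc R) ({(xf G)⁻¹} : Set Fc)) (wR G)) := by
    have := regularAlong_chart G'
    rwa [hxinv] at this
  have hu₁ : H754.OneModPi (algebraMap (Rf Fc R)
      (H138.chart (Rf Fc R) ({(xf G)⁻¹} : Set Fc)) (wR G)) uf := by
    have := oneModPi_chart G' (u := uf) hu1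
    rwa [hxinv] at this
  have hdiv₁ : H754.DivisibleDivisor (H138.chart (Rf Fc R) ({(xf G)⁻¹} : Set Fc)) m uf := by
    have := divisibleDivisor_chart G' (u := uf) hu1 (m := m) hdiv
    rwa [hxinv] at this
  obtain ⟨r, a, y, hr, huy⟩ := H394.kummer_charts_of_regular (R := Rf Fc R) (F := Fc)
    (fun a b h => Subtype.ext h) (isIntegral_Rf_mem_range G) (transcendental_xf G)
    (wR G) m hm ν hν uf huf0 (prime_chart G) hw₁ (regularAlong_chart G) hreg₁
    (oneModPi_chart G (u := uf) hu1) hu₁ (divisibleDivisor_chart G (u := uf) hu1 (m := m) hdiv)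
    hdiv₁
  have hrΩ : ((r : Fc) : Ω) ≠ 0 := fun h => hr (Subtype.ext (Subtype.ext h))
  have hrL : ((r : Fc) : Ω) ∈ Lc := G.E_le_L (G.R_le r.2)
  refine ⟨(y : Ω), ((r : Fc) : Ω) ^ a, zpow_mem hrL a, zpow_ne_zero a hrΩ, ?_⟩
  have h1 := congrArg (Subtype.val : Fc → Ω) huy
  have h2 : ((algebraMap (Rf Fc R) Fc r ^ a * y ^ m : Fc) : Ω)
      = ((r : Fc) : Ω) ^ a * (y : Ω) ^ m := by
    have h3 : algebraMap (Rf Fc R) Fc r = (r : Fc) := rfl
    rw [h3]
    push_cast
    rfl
  rw [← h2]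
  exact h1

/-- **node_alg**: the ALG main statement (frozen `Alg/Spec.lean` v4), for arbitrary arguments. -/
theorem algMain (Lc : Subfield Ω) (x : Ω) (S : Finset Ω) (𝓕 : Set (Model Ω)) :
    AlgMainStatement Lc x S 𝓕 := by
  intro hF p hp m hm hmR u huF hu0 hu1 hdiv
  exact algMain_of_goodModel (hF.good p hp) m hm hmR u huF hu0 hu1 hdiv

end Fermat.Agent.S18.H138
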