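import Mathlib
import Fermat.Agent.S18.H138.Connected

/-!
# S18, Route K, ASM (helper138): the charts as TYPES

For `R` noetherian with `R[X]` integrally closed, `F` a field of characteristic `0`,
`x : F` transcendental over `R` and `F` finite over `R(x)`, the chart
`B = chart R {x}` (elements of `F` integral over `R[x]`), viewed as a type, is a noetherian
integrally closed domain with fraction field `F`:

* `isFractionRing_chart`, `isIntegrallyClosed_chart`, `isNoetherianRing_chart`.

Transfer of integrality to an extension field `F'` of `F`:

* `mem_chart_map_of_isIntegral` : `c : F'` integral over `↥(chart R S)` ⟹ `c ∈ chart R (ι '' S)`,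
* `isIntegral_of_mem_chart_map` : conversely.
-/

set_option autoImplicit false
set_option linter.style.haveILetI false
set_option linter.unusedSectionVars false

namespace Fermat.Agent.S18.H138

open Polynomial

section Typed

variable {R : Type*} [CommRing R] {F : Type*} [Field F] [Algebra R F]

/-- Elements of a chart are integral over `R[S]`. -/
theorem isIntegral_coe_chart {S : Set F} (b : chart R S) :
    IsIntegral (Algebra.adjoin R S) (b : F) := b.2

/-- `F` is algebraic over `R[x]` if it is finite over `R(x)`. -/
theorem isAlgebraic_adjoin_singleton (x : F) [FiniteDimensional (baseField R x) F] (y : F) :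
    IsAlgebraic (Algebra.adjoin R ({x} : Set F)) y := by
  classical
  set A : Subalgebra R F := Algebra.adjoin R ({x} : Set F) with hA
  set K : Subfield F := baseField R x with hK
  let φ : A →+* K :=
    { toFun := fun a => ⟨a, adjoin_le_baseField x a.2⟩
      map_one' := rfl
      map_mul' := fun _ _ => rfl
      map_zero' := rfl
      map_add' := fun _ _ => rfl }
  letI : Algebra A K := φ.toAlgebra
  haveI : IsScalarTower A K F := IsScalarTower.of_algebraMap_eq (fun _ => rfl)
  have hinj : Function.Injective (algebraMap A K) := by
    intro a b hab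
    have : (a : F) = b := congrArg (fun t : K => (t : F)) hab
    exact Subtype.ext this
  haveI : FaithfulSMul A K := (faithfulSMul_iff_algebraMap_injective A K).2 hinj
  haveI : IsFractionRing A K := by
    refine IsFractionRing.of_field A K (fun z => ?_)
    obtain ⟨a, ha, b, hb, h⟩ := exists_div_of_mem_baseField (R := R) x z.2
    exact ⟨⟨a, ha⟩, ⟨b, hb⟩, Subtype.ext h⟩
  have hy : IsAlgebraic K y := Algebra.IsAlgebraic.isAlgebraic y
  exact (IsFractionRing.isAlgebraic_iff A K F).2 hy

/-- Algebraicity over `R[x]` passes to `R[S]` for `x ∈ S`. -/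
theorem isAlgebraic_adjoin_of_le {S T : Set F} (h : Algebra.adjoin R S ≤ Algebra.adjoin R T)
    {y : F} (hy : IsAlgebraic (Algebra.adjoin R S) y) : IsAlgebraic (Algebra.adjoin R T) y := by
  letI : Algebra (Algebra.adjoin R S) (Algebra.adjoin R T) :=
    (Subalgebra.inclusion h).toRingHom.toAlgebra
  haveI : IsScalarTower (Algebra.adjoin R S) (Algebra.adjoin R T) F :=
    IsScalarTower.of_algebraMap_eq (fun _ => rfl)
  exact hy.extendScalars (Subalgebra.inclusion_injective h)

theorem adjoin_inv_le_baseField (x : F) {a : F} (ha : a ∈ Algebra.adjoin R ({x⁻¹} : Set F)) :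
    a ∈ baseField R x := by
  have := adjoin_le_baseField (R := R) x⁻¹ ha
  rwa [baseField_inv] at this

/-- `F` is algebraic over `R[x⁻¹]` if it is finite over `R(x)`. -/
theorem isAlgebraic_adjoin_singleton_inv (x : F) [FiniteDimensional (baseField R x) F] (y : F) :
    IsAlgebraic (Algebra.adjoin R ({x⁻¹} : Set F)) y := by
  classical
  set A : Subalgebra R F := Algebra.adjoin R ({x⁻¹} : Set F) with hA
  set K : Subfield F := baseField R x with hK
  let φ : A →+* K :=
    { toFun := fun a => ⟨a, adjoin_inv_le_baseField x a.2⟩
      map_one' := rfl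
      map_mul' := fun _ _ => rfl
      map_zero' := rfl
      map_add' := fun _ _ => rfl }
  letI : Algebra A K := φ.toAlgebra
  haveI : IsScalarTower A K F := IsScalarTower.of_algebraMap_eq (fun _ => rfl)
  have hinj : Function.Injective (algebraMap A K) := by
    intro a b hab
    have : (a : F) = b := congrArg (fun t : K => (t : F)) hab
    exact Subtype.ext this
  haveI : FaithfulSMul A K := (faithfulSMul_iff_algebraMap_injective A K).2 hinj
  haveI : IsFractionRing A K := by
    refine IsFractionRing.of_field A K (fun z => ?_)
    have hz : (z : F) ∈ baseField R x⁻¹ := by rw [baseField_inv]; exact z.2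
    obtain ⟨a, ha, b, hb, h⟩ := exists_div_of_mem_baseField (R := R) x⁻¹ hz
    exact ⟨⟨a, ha⟩, ⟨b, hb⟩, Subtype.ext h⟩
  have hy : IsAlgebraic K y := Algebra.IsAlgebraic.isAlgebraic y
  exact (IsFractionRing.isAlgebraic_iff A K F).2 hy

end Typed

section Transfer

variable {R : Type*} [CommRing R] {F : Type*} [Field F] [Algebra R F]
  {F' : Type*} [Field F'] [Algebra F F'] [Algebra R F'] [IsScalarTower R F F']

/-- The image of `R[S]` in `F'` lies in `R[ι S]`. -/
theorem map_mem_adjoin {S : Set F} {a : F} (ha : a ∈ Algebra.adjoin R S) :
    algebraMap F F' a ∈ Algebra.adjoin R (algebraMap F F' '' S) := by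
  have h := AlgHom.map_adjoin (IsScalarTower.toAlgHom R F F') S
  have h2 : (IsScalarTower.toAlgHom R F F') a ∈
      (Algebra.adjoin R S).map (IsScalarTower.toAlgHom R F F') := ⟨a, ha, rfl⟩
  rw [h] at h2
  exact h2

/-- The image of a chart of `F` lies in the corresponding chart of `F'`. -/
theorem map_mem_chart {S : Set F} {y : F} (hy : y ∈ chart R S) :
    algebraMap F F' y ∈ chart R (algebraMap F F' '' S) := by
  rw [mem_chart] at hy ⊢
  let φ : Algebra.adjoin R S →+* Algebra.adjoin R (algebraMap F F' '' S) :=
    { toFun := fun a => ⟨algebraMap F F' a, map_mem_adjoin a.2⟩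
      map_one' := Subtype.ext (map_one _)
      map_mul' := fun a b => Subtype.ext (map_mul _ _ _)
      map_zero' := Subtype.ext (map_zero _)
      map_add' := fun a b => Subtype.ext (map_add _ _ _) }
  exact IsIntegral.map_of_comp_eq φ (algebraMap F F') (by ext; rfl) hy

variable {B : Type*} [CommRing B] [Algebra B F] [Algebra B F'] [IsScalarTower B F F']

/-- Transitivity of integrality through a ring `B` mapping into the integral closure. -/
theorem isIntegral_of_isIntegral_of_forall {A : Type*} [CommRing A] [Algebra A F']
    (hB : ∀ b : B, IsIntegral A (algebraMap B F' b)) {c : F'} (hc : IsIntegral B c) :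
    IsIntegral A c := by
  let ψ : B →+* integralClosure A F' :=
    { toFun := fun b => ⟨algebraMap B F' b, (mem_integralClosure_iff A F').2 (hB b)⟩
      map_one' := Subtype.ext (map_one _)
      map_mul' := fun a b => Subtype.ext (map_mul _ _ _)
      map_zero' := Subtype.ext (map_zero _)
      map_add' := fun a b => Subtype.ext (map_add _ _ _) }
  have h1 : IsIntegral (integralClosure A F') c := by
    have := IsIntegral.map_of_comp_eq ψ (RingHom.id F') (by ext; rfl) hc
    simpa using this
  have h2 : c ∈ integralClosure (integralClosure A F') F' :=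
    (mem_integralClosure_iff _ _).2 h1
  rw [integralClosure_idem, Algebra.mem_bot] at h2
  obtain ⟨d, rfl⟩ := h2
  exact (mem_integralClosure_iff A F').1 d.2

/-- If `B` maps into the chart `chart R S` of `F`, then every element of `F'` integral over `B`
lies in the chart `chart R (ι S)` of `F'`. -/
theorem mem_chart_of_isIntegral {S : Set F} (hB : ∀ b : B, algebraMap B F b ∈ chart R S)
    {c : F'} (hc : IsIntegral B c) : c ∈ chart R (algebraMap F F' '' S) := by
  rw [mem_chart]
  refine isIntegral_of_isIntegral_of_forall (B := B) (fun b => ?_) hc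
  rw [IsScalarTower.algebraMap_apply B F F']
  exact mem_chart.1 (map_mem_chart (hB b))

/-- If the chart `chart R S` of `F` is contained in the image of `B`, then every element of the
chart `chart R (ι S)` of `F'` is integral over `B`. -/
theorem isIntegral_of_mem_chart {S : Set F}
    (hB : ∀ y ∈ chart R S, y ∈ Set.range (algebraMap B F))
    {c : F'} (hc : c ∈ chart R (algebraMap F F' '' S)) : IsIntegral B c := by
  rw [mem_chart] at hc
  have hrange : ∀ y ∈ chart R S, IsIntegral B (algebraMap F F' y) := by
    intro y hy
    obtain ⟨b, rfl⟩ := hB y hy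
    rw [← IsScalarTower.algebraMap_apply B F F']
    exact isIntegral_algebraMap
  have hle : ∀ a ∈ Algebra.adjoin R (algebraMap F F' '' S), IsIntegral B a := by
    intro a ha
    induction ha using Algebra.adjoin_induction with
    | mem y hy =>
      obtain ⟨s, hs, rfl⟩ := hy
      exact hrange s (mem_chart_of_mem hs)
    | algebraMap r =>
      rw [IsScalarTower.algebraMap_apply R F F']
      exact hrange _ (adjoin_le_chart S (Subalgebra.algebraMap_mem _ r))
    | add y z _ _ hy hz => exact hy.add hz
    | mul y z _ _ hy hz => exact hy.mul hz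
  exact isIntegral_of_isIntegral_of_forall
    (B := Algebra.adjoin R (algebraMap F F' '' S)) (A := B) (fun a => hle a a.2) hc

end Transfer

end Fermat.Agent.S18.H138
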