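import Mathlib
import Fermat.Agent.S18.H138.TypedCharts
import Fermat.Agent.S18.H754.KummerLift
import Fermat.Agent.S18.H334.KummerUnmixed
import Fermat.Agent.S18.H694.KummerIdem

/-!
# S18, Route K, ASM (helper138): auxiliary lemmas for the Kummer assembly

* `not_self_eq_mul`       : `x ∉ w • B_fin` (`w` a non-unit of `R`),
* `finiteDimensional_baseField_map` : `F'` is finite over `R(x)` if `F'/F` and `F/R(x)` are finite,
* `not_inPiO_root_sub_one` : `z - 1 ∉ ϖ O'` (trace argument: `Tr (z - 1) = -p`),
* `not_inPiO_one_sub_kummerIdem` : `1 - e ∉ ϖ O'` for the Kummer idempotent `e = p⁻¹ ∑ z^a`,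
* `exists_eq_mul_of_inPiO` : unmixedness in the form used by the assembly.
-/

set_option autoImplicit false
set_option linter.style.haveILetI false
set_option linter.unusedSectionVars false
set_option linter.unusedVariables false

noncomputable section

namespace Fermat.Agent.S18.H138

open Polynomial IntermediateField Fermat.Agent.S18.H754

section InField

variable {R : Type*} [CommRing R] {F : Type*} [Field F] [Algebra R F]

/-- `x` is not divisible by a non-unit `w` of `R` in the chart `B_fin`. -/
theorem not_self_eq_mul [IsIntegrallyClosed R[X]]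
    (hinjR : Function.Injective (algebraMap R F)) {x : F} (hx : Transcendental R x)
    (w : R) (hw : ¬ IsUnit w) {t : F} (ht : t ∈ chart R ({x} : Set F))
    (h : x = algebraMap R F w * t) : False := by
  have hx0 : x ≠ 0 := ne_zero_of_transcendental hx
  have hwF : algebraMap R F w ≠ 0 := by
    intro h0
    rw [h0, zero_mul] at h
    exact hx0 h
  haveI := isIntegrallyClosed_adjoin_singleton (R := R) hx
  have htK : t ∈ baseField R x := by
    have : t = x / algebraMap R F w := by
      rw [h, mul_div_cancel_left₀ _ hwF]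
    rw [this]
    exact (baseField R x).div_mem (Subfield.subset_closure (Or.inr rfl))
      (Subfield.subset_closure (Or.inl ⟨w, rfl⟩))
  have htA : t ∈ Algebra.adjoin R ({x} : Set F) :=
    mem_of_isIntegral_of_mem _ (baseField R x) (fun a ha => adjoin_le_baseField x ha)
      (fun z hz => exists_div_of_mem_baseField x hz) htK ht
  obtain ⟨P, rfl⟩ := mem_adjoin_singleton_iff.1 htA
  have h3 : aeval x (X - C w * P) = 0 := by
    rw [map_sub, map_mul, aeval_C, aeval_X, ← h, sub_self]
  have h4 := (transcendental_iff.1 hx) _ h3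
  have h5 : (X : R[X]) = C w * P := sub_eq_zero.1 h4
  have h6 := congrArg (fun p : R[X] => p.coeff 1) h5
  simp only [coeff_X_one, coeff_C_mul] at h6
  exact hw (isUnit_iff_exists_inv.2 ⟨_, h6.symm⟩)

variable {F' : Type*} [Field F'] [Algebra F F'] [Algebra R F'] [IsScalarTower R F F']

theorem map_mem_baseField (x : F) {a : F} (ha : a ∈ baseField R x) :
    algebraMap F F' a ∈ baseField R (algebraMap F F' x) := by
  have hle : baseField R x ≤ (baseField R (algebraMap F F' x)).comap (algebraMap F F') := by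
    refine Subfield.closure_le.2 ?_
    rintro y (⟨r, rfl⟩ | hy)
    · show algebraMap F F' (algebraMap R F r) ∈ baseField R (algebraMap F F' x)
      rw [← IsScalarTower.algebraMap_apply R F F']
      exact Subfield.subset_closure (Or.inl ⟨r, rfl⟩)
    · rw [Set.mem_singleton_iff] at hy
      subst hy
      exact Subfield.subset_closure (Or.inr rfl)
  exact hle ha

/-- `F'` is finite over `R(x)`. -/
theorem finiteDimensional_baseField_map (x : F) [FiniteDimensional (baseField R x) F]
    [FiniteDimensional F F'] :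
    FiniteDimensional (baseField R (algebraMap F F' x)) F' := by
  let φ : baseField R x →+* baseField R (algebraMap F F' x) :=
    { toFun := fun a => ⟨algebraMap F F' a, map_mem_baseField x a.2⟩
      map_one' := Subtype.ext (map_one _)
      map_mul' := fun a b => Subtype.ext (map_mul _ _ _)
      map_zero' := Subtype.ext (map_zero _)
      map_add' := fun a b => Subtype.ext (map_add _ _ _) }
  letI : Algebra (baseField R x) (baseField R (algebraMap F F' x)) := φ.toAlgebra
  haveI : IsScalarTower (baseField R x) (baseField R (algebraMap F F' x)) F' :=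
    IsScalarTower.of_algebraMap_eq (fun _ => rfl)
  haveI : FiniteDimensional (baseField R x) F' := FiniteDimensional.trans (baseField R x) F F'
  exact Module.Finite.of_restrictScalars_finite (baseField R x) _ F'

end InField

section Trace

variable {B : Type*} [CommRing B] [IsDomain B] [IsIntegrallyClosed B]
  {F : Type*} [Field F] [Algebra B F] [IsFractionRing B F]
  {F' : Type*} [Field F'] [Algebra F F'] [Algebra B F'] [IsScalarTower B F F']

/-- `z - 1 ∉ ϖ O'`: the trace of `z - 1` is `-p`, a unit. -/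
theorem not_inPiO_root_sub_one {ϖ : B} (hϖ : Prime ϖ) {p : ℕ} (hp : p.Prime)
    (hpu : IsUnit (p : B)) {u : F} {z : F'} (hz : z ^ p = algebraMap F F' u)
    (hu : ∀ y : F, y ^ p ≠ u) : ¬ InPiO ϖ (z - 1) := by
  rintro ⟨s, hs, c, hc, hsc⟩
  obtain ⟨pinv, hpinv⟩ := hpu.exists_left_inv
  have hpF : (algebraMap B F pinv) * (p : F) = 1 := by
    have := congrArg (algebraMap B F) hpinv
    simpa using this
  have hϖF : algebraMap B F ϖ ≠ 0 := by
    simpa using hϖ.ne_zero
  have hϖF' : algebraMap B F' ϖ ≠ 0 := by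
    rw [IsScalarTower.algebraMap_apply B F F']
    simpa using hϖF
  have hfd : FiniteDimensional F F⟮z⟯ :=
    adjoin.finiteDimensional (H694.isIntegral_of_pow_eq hp.ne_zero hz)
  set g : F⟮z⟯ := AdjoinSimple.gen F z with hg
  have htr_g : Algebra.trace F F⟮z⟯ g = 0 := by
    have := H694.trace_gen_pow hp hu hz (a := 1) one_ne_zero hp.one_lt
    rwa [pow_one] at this
  have htr_1 : Algebra.trace F F⟮z⟯ (1 : F⟮z⟯) = (p : F) := by
    have := Algebra.trace_algebraMap (S := F⟮z⟯) (1 : F)
    rw [map_one] at this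
    rw [this, H694.finrank_adjoin_eq hp hu hz]
    simp
  set r : F := algebraMap B F s / algebraMap B F ϖ with hr
  set cL : F⟮z⟯ := algebraMap F F⟮z⟯ r * (g - 1) with hcL
  have hcL' : (cL : F') = c := by
    rw [hcL]
    push_cast
    rw [hg, AdjoinSimple.coe_gen, hr, map_div₀,
      ← IsScalarTower.algebraMap_apply B F F', ← IsScalarTower.algebraMap_apply B F F']
    field_simp
    rw [hsc]
  have hint : IsIntegral B cL := by
    have hinj : Function.Injective ((F⟮z⟯.val).restrictScalars B) := Subtype.val_injective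
    refine (isIntegral_algHom_iff ((F⟮z⟯.val).restrictScalars B) hinj).mp ?_
    have : ((F⟮z⟯.val).restrictScalars B) cL = c := hcL'
    rw [this]
    exact hc
  have htr_c : Algebra.trace F F⟮z⟯ cL = r * (0 - (p : F)) := by
    rw [hcL, ← Algebra.smul_def, map_smul, map_sub, htr_g, htr_1, smul_eq_mul]
  have h2 : IsIntegral B (Algebra.trace F F⟮z⟯ cL) := Algebra.isIntegral_trace hint
  rw [htr_c, IsIntegrallyClosed.isIntegral_iff] at h2
  obtain ⟨b, hb⟩ := h2
  apply hs
  rw [Ideal.mem_span_singleton]
  refine ⟨-(b * pinv), ?_⟩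
  apply IsFractionRing.injective B F
  rw [map_mul, map_neg, map_mul, hb, hr]
  field_simp
  linear_combination (-(algebraMap B F s)) * hpF

end Trace

section Idem

variable {B : Type*} [CommRing B] [IsDomain B] [IsIntegrallyClosed B]
  {F : Type*} [Field F] [Algebra B F] [IsFractionRing B F]
  {F' : Type*} [Field F'] [Algebra F F'] [Algebra B F'] [IsScalarTower B F F']

/-- `1 - e ∉ ϖ O'` for the Kummer idempotent `e = p⁻¹ ∑_{a<p} z^a`. -/
theorem not_inPiO_one_sub_kummerIdem {ϖ : B} (hϖ : Prime ϖ) {p : ℕ} (hp : p.Prime)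
    (hpu : IsUnit (p : B)) {u : F} {z : F'} (hz : z ^ p = algebraMap F F' u)
    (hu : ∀ y : F, y ^ p ≠ u) (h1 : OneModPi ϖ u) :
    ¬ InPiO ϖ (1 - kummerIdem p (1 : B) z) := by
  intro h
  haveI : FaithfulSMul B F' := faithfulSMul_of_tower B F F'
  obtain ⟨pinv, hpinv⟩ := hpu.exists_left_inv
  have hpF' : ((p : F'))⁻¹ = algebraMap B F' pinv := H694.natCast_inv_eq hpinv
  have hzO : z ∈ Oloc (F' := F') ϖ hϖ := z_mem_Oloc hϖ hp.pos hz h1
  have hz1O : z - 1 ∈ Oloc (F' := F') ϖ hϖ := sub_mem hzO (one_mem _)
  -- `(z - 1) e = p⁻¹ (u - 1) ∈ ϖ O'`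
  have hA : InPiO ϖ ((z - 1) * kummerIdem p (1 : B) z) := by
    have h3 := H694.inPiO_sub_one_mul_aeval hϖ hp.ne_zero hz h1 (C pinv)
    have h4 : (z - 1) * kummerIdem p (1 : B) z
        = algebraMap F F' (u - 1) * aeval z (C pinv : B[X]) := by
      rw [kummerIdem, aeval_C, ← hpF', map_sub, map_one, ← hz, ← mul_geom_sum z p]
      simp only [one_pow, map_one, one_mul]
      ring
    rw [h4]
    exact h3
  have hB : InPiO ϖ ((z - 1) * (1 - kummerIdem p (1 : B) z)) := h.mul_left hϖ hz1O
  have hC : InPiO ϖ (z - 1) := by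
    have := hA.add hϖ hB
    have e : (z - 1) * kummerIdem p (1 : B) z + (z - 1) * (1 - kummerIdem p (1 : B) z)
        = z - 1 := by ring
    rwa [e] at this
  exact not_inPiO_root_sub_one hϖ hp hpu hz hu hC

/-- Unmixedness, in the form used by the assembly. -/
theorem exists_eq_mul_of_inPiO {B : Type*} [CommRing B] [IsDomain B] [IsIntegrallyClosed B]
    (F : Type*) [Field F] [Algebra B F] [IsFractionRing B F]
    {F' : Type*} [Field F'] [Algebra F F'] [Algebra B F'] [IsScalarTower B F F']
    {ϖ : B} (hϖ : Prime ϖ) {y : F'} (hy : IsIntegral B y)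
    (h : InPiO ϖ y) : ∃ c : F', IsIntegral B c ∧ y = algebraMap B F' ϖ * c := by
  obtain ⟨s, hs, d, hd, hsc⟩ := h
  have hinj := IsFractionRing.injective B F
  have hϖF' : algebraMap B F' ϖ ≠ 0 := by
    rw [IsScalarTower.algebraMap_apply B F F']
    refine (map_ne_zero (algebraMap F F')).mpr ?_
    rw [Ne, map_eq_zero_iff _ hinj]; exact hϖ.ne_zero
  have hs' : ¬ ϖ ∣ s := fun h => hs (Ideal.mem_span_singleton.mpr h)
  refine ⟨(algebraMap B F' ϖ)⁻¹ * y,
    H334.isIntegral_of_isIntegral_mul F hϖ hs' _ ?_ ?_, ?_⟩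
  · rw [mul_inv_cancel_left₀ hϖF']
    exact hy
  · have : algebraMap B F' s * ((algebraMap B F' ϖ)⁻¹ * y) = d := by
      rw [mul_left_comm, hsc, inv_mul_cancel_left₀ hϖF']
    rw [this]
    exact hd
  · rw [mul_inv_cancel_left₀ hϖF']

end Idem

end Fermat.Agent.S18.H138

end
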