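import Mathlib
import Fermat.Agent.S18.H138.KummerAux

/-!
# S18, Route K, ASM part 2 (helper138): the typed Kummer assembly

`kummer_core` : **the Kummer endgame in the typeclass world.**

Setting: `R` a noetherian domain with `R[X]` integrally closed (a DVR), `w ∈ R` prime,
`F` a field of characteristic `0` finite over `R(x)`, `x` transcendental, `q` a prime which is a
unit of `R`, `u ∈ F` not a `q`-th power, `F'` a finite extension of `F` containing `z` with
`z ^ q = u`, such that `R` is integrally closed in `F'` (no new constants).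
`B₁`, `B₂` are (types isomorphic to) the charts `B_fin`, `B_inf` of `F`: noetherian integrally
closed domains with fraction field `F` whose images in `F` are the elements integral over
`R[x]`, resp. `R[x⁻¹]`; `ϖ_i ∈ B_i` is the image of `w`, prime in `B_i` (QEP), the special fibre
is regular (`H754.RegularAlong`, output of b2), `u ≡ 1 mod ϖ_i` (`H754.OneModPi`) and the divisor
of `u` on `Spec B_i` is divisible by `q` (`H754.DivisibleDivisor`).

Conclusion: `False`.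

Proof: the Kummer idempotent `e = q⁻¹ ∑ z^a` lifts to `b_i` integral over `B_i`
(`H754.kummer_lift_global`); by unmixedness (`H334`) the pair `(b₁, b₂)` is an idempotent of the
special fibre of the normal model of `F'` (two charts), which is connected
(`H138.connected_special_fibre`); so `e ≡ 0` or `e ≡ 1` modulo `ϖ O'`, contradicting the trace
computations `Tr e = 1`, `Tr (z - 1) = -q`.
-/

set_option autoImplicit false
set_option linter.style.haveILetI false
set_option linter.unusedSectionVars false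
set_option linter.unusedVariables false

noncomputable section

namespace Fermat.Agent.S18.H138

open Polynomial Fermat.Agent.S18.H754

section Core

variable {R : Type*} [CommRing R] [IsDomain R] [IsIntegrallyClosed R[X]]
  {F : Type*} [Field F] [Algebra R F]
  {F' : Type*} [Field F'] [Algebra F F'] [Algebra R F'] [IsScalarTower R F F']

/-- An element of `ϖ₂ O'` (chart at infinity) lies in `ϖ₁ O'` (chart at `0`): both are
`w O'` for the integral closure `O'` of the Gauss valuation ring. -/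
theorem inPiO_chart_transfer
    (hinjR : Function.Injective (algebraMap R F))
    {x : F} (hx : Transcendental R x) (w : R) (hw : Prime w)
    {B₁ : Type*} [CommRing B₁] [IsDomain B₁] [Algebra B₁ F] [IsFractionRing B₁ F]
    [Algebra B₁ F'] [IsScalarTower B₁ F F']
    (hB₁ : ∀ y : F, y ∈ Set.range (algebraMap B₁ F) ↔ y ∈ chart R ({x} : Set F))
    (ϖ₁ : B₁) (hϖ₁ : algebraMap B₁ F ϖ₁ = algebraMap R F w)
    {B₂ : Type*} [CommRing B₂] [IsDomain B₂] [Algebra B₂ F] [IsFractionRing B₂ F]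
    [Algebra B₂ F'] [IsScalarTower B₂ F F']
    (hB₂ : ∀ y : F, y ∈ Set.range (algebraMap B₂ F) ↔ y ∈ chart R ({x⁻¹} : Set F))
    (ϖ₂ : B₂) (hϖ₂ : algebraMap B₂ F ϖ₂ = algebraMap R F w) (hp₂ : Prime ϖ₂)
    {y : F'} (h : InPiO ϖ₂ y) : InPiO ϖ₁ y := by
  have hx0 : x ≠ 0 := ne_zero_of_transcendental hx
  have hx'0 : algebraMap F F' x ≠ 0 := (map_ne_zero (algebraMap F F')).mpr hx0
  have hinj₁ := IsFractionRing.injective B₁ F
  have hinj₂ := IsFractionRing.injective B₂ F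
  obtain ⟨s₂, hs₂, c₂, hc₂, hsc⟩ := h
  set σ : F := algebraMap B₂ F s₂ with hσ
  have hσmem : σ ∈ chart R ({x⁻¹} : Set F) := (hB₂ σ).1 ⟨s₂, rfl⟩
  have hσmid : σ ∈ chart R ({x, x⁻¹} : Set F) := chart_mono (by simp) hσmem
  obtain ⟨n₁, hn₁⟩ := exists_pow_mul_mem_chart hx0 hσmid
  have hc₂mem : c₂ ∈ chart R ({(algebraMap F F' x)⁻¹} : Set F') := by
    have := mem_chart_of_isIntegral (R := R) (F := F) (F' := F') (B := B₂)
      (S := ({x⁻¹} : Set F)) (fun b => (hB₂ _).1 ⟨b, rfl⟩) hc₂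
    rwa [Set.image_singleton, map_inv₀] at this
  have hc₂mid : c₂ ∈ chart R ({algebraMap F F' x, (algebraMap F F' x)⁻¹} : Set F') :=
    chart_mono (by simp) hc₂mem
  obtain ⟨n₂, hn₂⟩ := exists_pow_mul_mem_chart hx'0 hc₂mid
  have hxmem : x ∈ chart R ({x} : Set F) := mem_chart_of_mem rfl
  have hx'mem : algebraMap F F' x ∈ chart R ({algebraMap F F' x} : Set F') :=
    mem_chart_of_mem rfl
  -- common exponent
  have hN₁ : x ^ (n₁ + n₂) * σ ∈ chart R ({x} : Set F) := by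
    have : x ^ (n₁ + n₂) * σ = x ^ n₂ * (x ^ n₁ * σ) := by ring
    rw [this]
    exact Subalgebra.mul_mem _ (Subalgebra.pow_mem _ hxmem _) hn₁
  have hN₂ : (algebraMap F F' x) ^ (n₁ + n₂) * c₂ ∈
      chart R ({algebraMap F F' x} : Set F') := by
    have : (algebraMap F F' x) ^ (n₁ + n₂) * c₂
        = (algebraMap F F' x) ^ n₁ * ((algebraMap F F' x) ^ n₂ * c₂) := by ring
    rw [this]
    exact Subalgebra.mul_mem _ (Subalgebra.pow_mem _ hx'mem _) hn₂
  obtain ⟨s₁, hs₁⟩ := (hB₁ _).2 hN₁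
  have hc₁ : IsIntegral B₁ ((algebraMap F F' x) ^ (n₁ + n₂) * c₂) := by
    refine isIntegral_of_mem_chart (R := R) (F := F) (F' := F') (B := B₁)
      (S := ({x} : Set F)) (fun y hy => (hB₁ y).2 hy) ?_
    rw [Set.image_singleton]
    exact hN₂
  refine ⟨s₁, ?_, _, hc₁, ?_⟩
  · intro hmem
    rw [Ideal.mem_span_singleton] at hmem
    obtain ⟨t₁, ht₁⟩ := hmem
    set τ : F := algebraMap B₁ F t₁ with hτ
    have hτmem : τ ∈ chart R ({x} : Set F) := (hB₁ τ).1 ⟨t₁, rfl⟩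
    have hFeq : x ^ (n₁ + n₂) * σ = algebraMap R F w * τ := by
      rw [← hs₁, ht₁, map_mul, hϖ₁]
    obtain ⟨k, hk⟩ := exists_inv_pow_mul_mem_chart hx0 hτmem
    have hxinv : x⁻¹ ∈ chart R ({x⁻¹} : Set F) := mem_chart_of_mem rfl
    obtain ⟨ξ, hξ⟩ := (hB₂ _).2 hxinv
    obtain ⟨t₂, ht₂⟩ := (hB₂ _).2 hk
    have hB₂eq : ξ ^ k * s₂ = ϖ₂ * (t₂ * ξ ^ (n₁ + n₂)) := by
      apply hinj₂
      rw [map_mul, map_mul, map_mul, map_pow, map_pow, hξ, ht₂, hϖ₂, ← hσ]
      have h1 : σ = algebraMap R F w * τ * x⁻¹ ^ (n₁ + n₂) := by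
        rw [← hFeq, inv_pow]
        field_simp
      rw [h1]
      ring
    have hdvd : ϖ₂ ∣ ξ ^ k * s₂ := ⟨_, hB₂eq⟩
    rcases hp₂.dvd_or_dvd hdvd with h | h
    · have h2 := hp₂.dvd_of_dvd_pow h
      obtain ⟨t, ht⟩ := h2
      have h3 : x⁻¹ = algebraMap R F w * algebraMap B₂ F t := by
        rw [← hξ, ht, map_mul, hϖ₂]
      exact not_self_eq_mul hinjR (transcendental_inv hx) w hw.not_isUnit
        ((hB₂ _).1 ⟨t, rfl⟩) h3
    · exact hs₂ (Ideal.mem_span_singleton.2 h)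
  · have e1 : algebraMap B₁ F' s₁ = (algebraMap F F' x) ^ (n₁ + n₂) * algebraMap B₂ F' s₂ := by
      rw [IsScalarTower.algebraMap_apply B₁ F F', hs₁, map_mul, map_pow, hσ,
        ← IsScalarTower.algebraMap_apply B₂ F F']
    have e2 : algebraMap B₁ F' ϖ₁ = algebraMap B₂ F' ϖ₂ := by
      rw [IsScalarTower.algebraMap_apply B₁ F F', hϖ₁, IsScalarTower.algebraMap_apply B₂ F F',
        hϖ₂]
    rw [e1, e2, mul_assoc, hsc]
    ring

/-- A natural number which is a unit of `R` is a unit of the chart `B`. -/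
theorem isUnit_natCast_chart {x : F} {S : Set F}
    {B : Type*} [CommRing B] [IsDomain B] [Algebra B F] [IsFractionRing B F]
    (hB : ∀ y : F, y ∈ Set.range (algebraMap B F) ↔ y ∈ chart R S)
    {q : ℕ} (hq : IsUnit (q : R)) : IsUnit (q : B) := by
  obtain ⟨r, hr⟩ := hq.exists_left_inv
  have hmem : algebraMap R F r ∈ chart R S :=
    adjoin_le_chart S (Subalgebra.algebraMap_mem _ r)
  obtain ⟨b, hb⟩ := (hB _).2 hmem
  refine isUnit_iff_exists_inv'.2 ⟨b, ?_⟩
  apply IsFractionRing.injective B F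
  rw [map_mul, hb, map_natCast, map_one, ← map_natCast (algebraMap R F), ← map_mul, hr, map_one]

/-- **The Kummer endgame, typed form.** -/
theorem kummer_core [IsNoetherianRing R] [CharZero F] [FiniteDimensional F F']
    (hinjR : Function.Injective (algebraMap R F))
    (hRF' : ∀ y : F', IsIntegral R y → y ∈ Set.range (algebraMap R F'))
    {x : F} (hx : Transcendental R x) [FiniteDimensional (baseField R x) F]
    (w : R) (hw : Prime w)
    (q : ℕ) (hq : q.Prime) (hqR : IsUnit (q : R))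
    (u : F) (hu : ∀ y : F, y ^ q ≠ u) (z : F') (hz : z ^ q = algebraMap F F' u)
    -- the chart at `0`
    {B₁ : Type*} [CommRing B₁] [IsDomain B₁] [IsNoetherianRing B₁] [IsIntegrallyClosed B₁]
    [Algebra B₁ F] [IsFractionRing B₁ F] [Algebra B₁ F'] [IsScalarTower B₁ F F']
    (hB₁ : ∀ y : F, y ∈ Set.range (algebraMap B₁ F) ↔ y ∈ chart R ({x} : Set F))
    (ϖ₁ : B₁) (hϖ₁ : algebraMap B₁ F ϖ₁ = algebraMap R F w) (hp₁ : Prime ϖ₁)
    (hreg₁ : RegularAlong ϖ₁) (h1₁ : OneModPi ϖ₁ u) (hdiv₁ : DivisibleDivisor B₁ q u)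
    -- the chart at `∞`
    {B₂ : Type*} [CommRing B₂] [IsDomain B₂] [IsNoetherianRing B₂] [IsIntegrallyClosed B₂]
    [Algebra B₂ F] [IsFractionRing B₂ F] [Algebra B₂ F'] [IsScalarTower B₂ F F']
    (hB₂ : ∀ y : F, y ∈ Set.range (algebraMap B₂ F) ↔ y ∈ chart R ({x⁻¹} : Set F))
    (ϖ₂ : B₂) (hϖ₂ : algebraMap B₂ F ϖ₂ = algebraMap R F w) (hp₂ : Prime ϖ₂)
    (hreg₂ : RegularAlong ϖ₂) (h1₂ : OneModPi ϖ₂ u) (hdiv₂ : DivisibleDivisor B₂ q u) :
    False := by
  classical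
  -- basic facts
  have hx0 : x ≠ 0 := ne_zero_of_transcendental hx
  set x' : F' := algebraMap F F' x with hx'def
  have hx'0 : x' ≠ 0 := (map_ne_zero (algebraMap F F')).mpr hx0
  have hx' : Transcendental R x' :=
    (transcendental_algebraMap_iff (algebraMap F F').injective).2 hx
  have hinjR' : Function.Injective (algebraMap R F') := by
    rw [IsScalarTower.algebraMap_eq R F F']
    exact (algebraMap F F').injective.comp hinjR
  haveI : CharZero F' := charZero_of_injective_algebraMap (algebraMap F F').injective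
  haveI : FiniteDimensional (baseField R x') F' := finiteDimensional_baseField_map x
  haveI : FaithfulSMul B₁ F' := faithfulSMul_of_tower B₁ F F'
  haveI : FaithfulSMul B₂ F' := faithfulSMul_of_tower B₂ F F'
  have hq₁ : IsUnit (q : B₁) := isUnit_natCast_chart (x := x) hB₁ hqR
  have hq₂ : IsUnit (q : B₂) := isUnit_natCast_chart (x := x) hB₂ hqR
  have hw₁ : algebraMap B₁ F' ϖ₁ = algebraMap R F' w := by
    rw [IsScalarTower.algebraMap_apply B₁ F F', hϖ₁, ← IsScalarTower.algebraMap_apply R F F']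
  have hw₂ : algebraMap B₂ F' ϖ₂ = algebraMap R F' w := by
    rw [IsScalarTower.algebraMap_apply B₂ F F', hϖ₂, ← IsScalarTower.algebraMap_apply R F F']
  -- integrality over `B_i` versus the charts of `F'`
  have toChart₁ : ∀ c : F', IsIntegral B₁ c → c ∈ chart R ({x'} : Set F') := by
    intro c hc
    have := mem_chart_of_isIntegral (R := R) (F := F) (F' := F') (B := B₁)
      (S := ({x} : Set F)) (fun b => (hB₁ _).1 ⟨b, rfl⟩) hc
    rwa [Set.image_singleton] at this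
  have toChart₂ : ∀ c : F', IsIntegral B₂ c → c ∈ chart R ({x'⁻¹} : Set F') := by
    intro c hc
    have := mem_chart_of_isIntegral (R := R) (F := F) (F' := F') (B := B₂)
      (S := ({x⁻¹} : Set F)) (fun b => (hB₂ _).1 ⟨b, rfl⟩) hc
    rwa [Set.image_singleton, map_inv₀] at this
  have ofChart₁ : ∀ c : F', c ∈ chart R ({x'} : Set F') → IsIntegral B₁ c := by
    intro c hc
    refine isIntegral_of_mem_chart (R := R) (F := F) (F' := F') (B := B₁)
      (S := ({x} : Set F)) (fun y hy => (hB₁ y).2 hy) ?_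
    rw [Set.image_singleton]
    exact hc
  have ofChart₂ : ∀ c : F', c ∈ chart R ({x'⁻¹} : Set F') → IsIntegral B₂ c := by
    intro c hc
    refine isIntegral_of_mem_chart (R := R) (F := F) (F' := F') (B := B₂)
      (S := ({x⁻¹} : Set F)) (fun y hy => (hB₂ y).2 hy) ?_
    rw [Set.image_singleton, map_inv₀]
    exact hc
  -- the Kummer idempotent
  set e : F' := kummerIdem q (1 : B₁) z with he
  have he₂ : kummerIdem q (1 : B₂) z = e := by
    rw [he, kummerIdem, kummerIdem]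
    simp only [one_pow, map_one]
  -- lifts
  obtain ⟨b₁, hb₁, hbe₁⟩ :=
    kummer_lift_global ϖ₁ hp₁ hreg₁ q hq.pos hq₁ u z hz h1₁ hdiv₁ (1 : B₁)
  obtain ⟨b₂, hb₂, hbe₂⟩ :=
    kummer_lift_global ϖ₂ hp₂ hreg₂ q hq.pos hq₂ u z hz h1₂ hdiv₂ (1 : B₂)
  rw [he₂] at hbe₂
  rw [← he] at hbe₁
  have heO₁ : e ∈ Oloc (F' := F') ϖ₁ hp₁ := kummerIdem_mem_Oloc hp₁ hq.pos hq₁ hz h1₁ 1
  have heO₂ : e ∈ Oloc (F' := F') ϖ₂ hp₂ := by
    rw [← he₂]
    exact kummerIdem_mem_Oloc hp₂ hq.pos hq₂ hz h1₂ 1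
  have hbO₁ : b₁ ∈ Oloc (F' := F') ϖ₁ hp₁ := mem_Oloc_of_isIntegral hp₁ hb₁
  have hbO₂ : b₂ ∈ Oloc (F' := F') ϖ₂ hp₂ := mem_Oloc_of_isIntegral hp₂ hb₂
  have hidem₁ : InPiO ϖ₁ (e * e - e) :=
    H694.kummerIdem_sq_sub hp₁ hq.ne_zero hq₁ hz h1₁ (one_pow q)
  have hidem₂ : InPiO ϖ₂ (e * e - e) := by
    have := H694.kummerIdem_sq_sub hp₂ hq.ne_zero hq₂ hz h1₂ (one_pow q)
    rwa [he₂] at this
  -- `b_i` is idempotent modulo `ϖ_i O'`
  have hbidem₁ : InPiO ϖ₁ (b₁ ^ 2 - b₁) := by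
    have h := (hbe₁.mul_right hp₁
      (sub_mem (add_mem hbO₁ heO₁) (one_mem _))).add hp₁ hidem₁
    have e1 : (b₁ - e) * (b₁ + e - 1) + (e * e - e) = b₁ ^ 2 - b₁ := by ring
    rwa [e1] at h
  have hbidem₂ : InPiO ϖ₂ (b₂ ^ 2 - b₂) := by
    have h := (hbe₂.mul_right hp₂
      (sub_mem (add_mem hbO₂ heO₂) (one_mem _))).add hp₂ hidem₂
    have e1 : (b₂ - e) * (b₂ + e - 1) + (e * e - e) = b₂ ^ 2 - b₂ := by ring
    rwa [e1] at h
  -- hypotheses of the connectedness theorem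
  have hmem₁ : b₁ ∈ chart R ({x'} : Set F') := toChart₁ b₁ hb₁
  have hmem₂ : b₂ ∈ chart R ({x'⁻¹} : Set F') := toChart₂ b₂ hb₂
  have hi₁ : ∃ t ∈ chart R ({x'} : Set F'), b₁ ^ 2 - b₁ = algebraMap R F' w * t := by
    obtain ⟨c, hc, hyc⟩ := exists_eq_mul_of_inPiO F hp₁
      ((hb₁.pow 2).sub hb₁) hbidem₁
    exact ⟨c, toChart₁ c hc, by rw [hyc, hw₁]⟩
  have hi₂ : ∃ t ∈ chart R ({x'⁻¹} : Set F'), b₂ ^ 2 - b₂ = algebraMap R F' w * t := by
    obtain ⟨c, hc, hyc⟩ := exists_eq_mul_of_inPiO F hp₂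
      ((hb₂.pow 2).sub hb₂) hbidem₂
    exact ⟨c, toChart₂ c hc, by rw [hyc, hw₂]⟩
  have h₁₂ : ∃ t ∈ chart R ({x', x'⁻¹} : Set F'), b₁ - b₂ = algebraMap R F' w * t := by
    have hbe₂' : InPiO ϖ₁ (b₂ - e) :=
      inPiO_chart_transfer hinjR hx w hw hB₁ ϖ₁ hϖ₁ hB₂ ϖ₂ hϖ₂ hp₂ hbe₂
    have hd : InPiO ϖ₁ (b₁ - b₂) := by
      have := hbe₁.sub hp₁ hbe₂'
      have e1 : b₁ - e - (b₂ - e) = b₁ - b₂ := by ring
      rwa [e1] at this
    have hmid₂ : b₂ ∈ chart R ({x', x'⁻¹} : Set F') := chart_mono (by simp) hmem₂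
    obtain ⟨m, hm⟩ := exists_pow_mul_mem_chart hx'0 hmid₂
    have hx'mem : x' ∈ chart R ({x'} : Set F') := mem_chart_of_mem rfl
    have hy : x' ^ m * (b₁ - b₂) ∈ chart R ({x'} : Set F') := by
      rw [mul_sub]
      exact Subalgebra.sub_mem _
        (Subalgebra.mul_mem _ (Subalgebra.pow_mem _ hx'mem _) hmem₁) hm
    have hxO : x' ^ m ∈ Oloc (F' := F') ϖ₁ hp₁ :=
      mem_Oloc_of_isIntegral hp₁ (ofChart₁ _ (Subalgebra.pow_mem _ hx'mem _))
    obtain ⟨c, hc, hyc⟩ := exists_eq_mul_of_inPiO F hp₁ (ofChart₁ _ hy)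
      (hd.mul_left hp₁ hxO)
    have hcmem : c ∈ chart R ({x', x'⁻¹} : Set F') := chart_mono (by simp) (toChart₁ c hc)
    have hxinv : x'⁻¹ ∈ chart R ({x', x'⁻¹} : Set F') := mem_chart_of_mem (by simp)
    refine ⟨x'⁻¹ ^ m * c, Subalgebra.mul_mem _ (Subalgebra.pow_mem _ hxinv _) hcmem, ?_⟩
    have e1 : b₁ - b₂ = x'⁻¹ ^ m * (x' ^ m * (b₁ - b₂)) := by
      rw [inv_pow]
      field_simp
    rw [e1, hyc, hw₁]
    ring
  -- connectedness of the special fibre of the model of `F'`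
  rcases connected_special_fibre hinjR' hRF' hx' w hw b₁ b₂ hmem₁ hmem₂ hi₁ hi₂ h₁₂ with
    ⟨⟨t, ht, h⟩, -⟩ | ⟨⟨t, ht, h⟩, -⟩
  · -- `e ≡ b₁ ≡ 0`
    have hb : InPiO ϖ₁ b₁ := ⟨1, by
      rw [Ideal.mem_span_singleton]
      exact fun h => hp₁.not_isUnit (isUnit_of_dvd_one h), t, ofChart₁ t ht, by
      rw [map_one, one_mul, h, hw₁]⟩
    have hE : InPiO ϖ₁ e := by
      have := hb.sub hp₁ hbe₁
      have e1 : b₁ - (b₁ - e) = e := by ring
      rwa [e1] at this
    exact H694.not_inPiO_kummerIdem hp₁ hq hq₁ hz hu 1 hE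
  · -- `e ≡ b₁ ≡ 1`
    have hb : InPiO ϖ₁ (1 - b₁) := ⟨1, by
      rw [Ideal.mem_span_singleton]
      exact fun h => hp₁.not_isUnit (isUnit_of_dvd_one h), t, ofChart₁ t ht, by
      rw [map_one, one_mul, h, hw₁]⟩
    have hE : InPiO ϖ₁ (1 - e) := by
      have := hb.add hp₁ hbe₁
      have e1 : 1 - b₁ + (b₁ - e) = 1 - e := by ring
      rwa [e1] at this
    exact not_inPiO_one_sub_kummerIdem hp₁ hq hq₁ hz hu h1₁ hE

end Core

end Fermat.Agent.S18.H138

end
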